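import Mathlib
import Fermat.Prelude.Def_FLTPrelim_Modularity
import Fermat.Agent.Switch.Transitive
import Fermat.Agent.Arith.Places

/-!
# The family of curves attached to a semistable integral model
-/

set_option autoImplicit false
set_option linter.unusedSectionVars false

namespace Fermat.Agent.Switch

open Polynomial WeierstrassCurve

local notation "Qb" => AlgebraicClosure ℚ

section Point

variable {K : Type*} [Field K] [CharZero K]

/-- Every nondegenerate pair of invariants occurs on the icosahedral family. -/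
theorem exists_forms_eq [IsAlgClosed K] {c₄ c₆ : K} (h4 : c₄ ≠ 0) (h6 : c₆ ≠ 0)
    (hd : c₄ ^ 3 - c₆ ^ 2 ≠ 0) :
    ∃ r s : K, fC4 r s = c₄ ∧ fC6 r s = c₆ ∧ fD r s ≠ 0 := by
  set P : K[X] := C (1728 * c₄ ^ 3) * fD X 1 ^ 5 - C (c₄ ^ 3 - c₆ ^ 2) * fC4 X 1 ^ 3 with hP
  have hcoef : P.coeff 60 = -(c₄ ^ 3 - c₆ ^ 2) := by
    have h1 : (fD (X : K[X]) 1 ^ 5).natDegree < 60 :=
      natDegree_pow_le.trans_lt (by have := natDegree_fD_X_le (K := K); omega)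
    have h2 := coeff_pow_of_natDegree_le (n := 20) (m := 3) (natDegree_fC4_X_le (K := K))
    rw [hP, coeff_sub, coeff_C_mul, coeff_C_mul, coeff_eq_zero_of_natDegree_lt h1,
      show 60 = 3 * 20 by rfl, h2, coeff_fC4_X]
    simp
  have hdeg : P.degree ≠ 0 := by
    intro h
    have hC := eq_C_of_degree_eq_zero h
    rw [hC, coeff_C, if_neg (by norm_num)] at hcoef
    exact hd (neg_eq_zero.mp hcoef.symm)
  obtain ⟨x, hx⟩ := IsAlgClosed.exists_root P hdeg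
  simp only [hP, IsRoot.def, eval_sub, eval_mul, eval_C, eval_pow, eval_fD, eval_fC4, eval_X,
    eval_one] at hx
  have hD : fD x 1 ≠ 0 := by
    intro h
    rw [h] at hx
    exact one_ne_zero (eq_zero_of_fC4_fD (by simpa [hd] using hx) h).2
  have hc4 : fC4 x 1 ≠ 0 := by
    intro h
    rw [h] at hx
    simp [h4, hD] at hx
  have hrel := fC4_cube_sub_fC6_sq x 1
  have hkey : c₆ ^ 2 * fC4 x 1 ^ 3 = c₄ ^ 3 * fC6 x 1 ^ 2 := by
    linear_combination hx + c₄ ^ 3 * hrel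
  have hc6 : fC6 x 1 ≠ 0 := by
    intro h
    rw [h] at hkey
    simp [h6, hc4] at hkey
  set e := c₆ * fC4 x 1 / (fC6 x 1 * c₄) with he
  have e2 : e ^ 2 * fC4 x 1 = c₄ := by
    rw [he]; field_simp; linear_combination hkey
  have e3 : e ^ 3 * fC6 x 1 = c₆ := by
    rw [he]; field_simp; linear_combination hkey
  obtain ⟨c, hc⟩ := IsAlgClosed.exists_pow_nat_eq e (show 0 < 10 by norm_num)
  have hc0 : c ≠ 0 := by
    intro h
    rw [h, zero_pow (by norm_num)] at hc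
    rw [← hc] at e2
    simp [Ne.symm h4] at e2
  refine ⟨c * x, c * 1, ?_, ?_, ?_⟩
  · rw [fC4_smul, show c ^ 20 = (c ^ 10) ^ 2 by ring, hc, e2]
  · rw [fC6_smul, show c ^ 30 = (c ^ 10) ^ 3 by ring, hc, e3]
  · rw [fD_smul]; exact mul_ne_zero (pow_ne_zero _ hc0) hD

/-- Some integral translate of the covariant vector avoids the zero set of `fD`. -/
theorem exists_int_fD_ne {r s : K} (hD : fD r s ≠ 0) :
    ∃ α : ℤ, fD ((α : K) * r - fDs r s) ((α : K) * s + fDr r s) ≠ 0 := by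
  by_contra hall
  simp only [not_exists, ne_eq, not_not] at hall
  set P : K[X] := fD (C r - C (fDs r s) * X) (C s + C (fDr r s) * X) with hP
  have hP0 : P = 0 := by
    refine eq_zero_of_infinite_isRoot _ ?_
    refine Set.infinite_of_injective_forall_mem
      (f := fun n : ℕ => ((n + 1 : ℕ) : K)⁻¹) (fun a b h => ?_) fun n => ?_
    · simpa using h
    · have h := hall (n + 1)
      simp only [Set.mem_ofPred_eq, IsRoot.def, hP, eval_fD, eval_sub, eval_add, eval_mul,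
        eval_C, eval_X]
      have hn : ((n + 1 : ℕ) : K) ≠ 0 := Nat.cast_ne_zero.mpr (Nat.succ_ne_zero n)
      have key := fD_smul ((n + 1 : ℕ) : K)⁻¹ (((n + 1 : ℤ) : K) * r - fDs r s)
        (((n + 1 : ℤ) : K) * s + fDr r s)
      rw [h, mul_zero] at key
      rw [← key]
      push_cast at hn ⊢
      congr 1 <;> field_simp
  have := congrArg (Polynomial.eval 0) hP0
  simp [hP, eval_fD, hD] at this

end Point

section Semistable

variable {W : WeierstrassCurve ℤ}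

theorem c₄_ne_zero_of_semistable (_hΔ : W.Δ ≠ 0) (hW : W.IsSemistableModel) : W.c₄ ≠ 0 := by
  intro h0
  have hunit : W.Δ.natAbs = 1 := by
    by_contra hne
    obtain ⟨p, hp, hdvd⟩ := Nat.exists_prime_and_dvd hne
    exact hW p hp (Int.natCast_dvd.mpr hdvd) (by rw [h0]; exact dvd_zero _)
  have hrel := W.c_relation
  rw [h0, zero_pow three_ne_zero, zero_sub] at hrel
  rcases Int.natAbs_eq W.Δ with h | h <;> rw [h, hunit] at hrel <;> push_cast at hrel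
  · nlinarith [sq_nonneg W.c₆]
  · have h1 : W.c₆ ≤ 42 := by nlinarith
    have h2 : -42 ≤ W.c₆ := by nlinarith
    interval_cases hc : W.c₆ <;> norm_num at hrel

theorem c₆_ne_zero_of_semistable (_hΔ : W.Δ ≠ 0) (hW : W.IsSemistableModel) : W.c₆ ≠ 0 := by
  intro h0
  have hrel := W.c_relation
  rw [h0, zero_pow two_ne_zero, sub_zero] at hrel
  have hp' : ∀ p : ℕ, p.Prime → (p : ℤ) ∣ W.Δ → False := fun p hp hdvd =>
    hW p hp hdvd ((Nat.prime_iff_prime_int.mp hp).dvd_of_dvd_pow (n := 3)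
      (hrel ▸ hdvd.mul_left 1728))
  have hunit : W.Δ.natAbs = 1 := by
    by_contra hne
    obtain ⟨p, hp, hdvd⟩ := Nat.exists_prime_and_dvd hne
    exact hp' p hp (Int.natCast_dvd.mpr hdvd)
  have hc : W.c₄ = 12 ∨ W.c₄ = -12 := by
    rcases Int.natAbs_eq W.Δ with h | h <;> rw [h, hunit] at hrel <;> push_cast at hrel
    · left; nlinarith [sq_nonneg (W.c₄ + 6), sq_nonneg (W.c₄ - 12)]
    · right; nlinarith [sq_nonneg (W.c₄ - 6), sq_nonneg (W.c₄ + 12)]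
  have h4 : W.c₄ = (W.a₁ ^ 2 + 4 * W.a₂) ^ 2 - 24 * (2 * W.a₄ + W.a₁ * W.a₃) := rfl
  have h6 : W.c₆ = -(W.a₁ ^ 2 + 4 * W.a₂) ^ 3
      + 36 * (W.a₁ ^ 2 + 4 * W.a₂) * (2 * W.a₄ + W.a₁ * W.a₃)
      - 216 * (W.a₃ ^ 2 + 4 * W.a₆) := rfl
  set B := W.a₁ ^ 2 + 4 * W.a₂ with hB
  set B4 := 2 * W.a₄ + W.a₁ * W.a₃ with hB4
  obtain ⟨k, hk⟩ : (6 : ℤ) ∣ B := by
    have h12 : (12 : ℤ) ∣ B ^ 2 := by
      rcases hc with h | h <;> rw [h] at h4
      · exact ⟨1 + 2 * B4, by linarith⟩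
      · exact ⟨-1 + 2 * B4, by linarith⟩
    have h2 : (2 : ℤ) ∣ B := Int.prime_two.dvd_of_dvd_pow (dvd_trans (by norm_num) h12)
    have h3 : (3 : ℤ) ∣ B := Int.prime_three.dvd_of_dvd_pow (dvd_trans (by norm_num) h12)
    omega
  obtain ⟨a, ha⟩ : (2 : ℤ) ∣ W.a₁ := by
    refine Int.prime_two.dvd_of_dvd_pow (n := 2) ⟨3 * k - 2 * W.a₂, ?_⟩
    linarith
  have hk2 : 3 * k = 2 * (a ^ 2 + W.a₂) := by
    have : B = 4 * (a ^ 2 + W.a₂) := by rw [hB, ha]; ring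
    linarith
  obtain ⟨m, hm⟩ : (2 : ℤ) ∣ k := by omega
  rw [hk, hm] at h4
  rcases hc with h | h <;> rw [h] at h4 <;> ring_nf at h4 <;> omega

end Semistable

/-- All the data of the family used for the switch. -/
structure FamilyData (W : WeierstrassCurve ℤ) where
  r₀ : Qb
  s₀ : Qb
  u : Qb
  v : Qb
  M : ℤ
  d4 : ℤ → ℤ
  d6 : ℤ → ℤ
  α : ℤ
  hM : M ≠ 0
  c4_base : fC4 r₀ s₀ = (W.c₄ : Qb)
  c6_base : fC6 r₀ s₀ = (W.c₆ : Qb)
  fD_base : fD r₀ s₀ ≠ 0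
  hu : u = (α : Qb) * r₀ - fDs r₀ s₀
  hv : v = (α : Qb) * s₀ + fDr r₀ s₀
  fD_dir : fD u v ≠ 0
  sym : ∀ σ : Qb ≃ₐ[ℚ] Qb, ∃ a b c d : Qb, IsSym a b c d ∧ σ r₀ = a * r₀ + b * s₀ ∧
    σ s₀ = c * r₀ + d * s₀ ∧ σ u = a * u + b * v ∧ σ v = c * u + d * v
  d4_dvd : ∀ n : ℤ, 30 * W.Δ ∣ d4 n
  d6_dvd : ∀ n : ℤ, 30 * W.Δ ∣ d6 n
  c4_fib : ∀ n : ℤ, (((⟨W.a₁, W.a₂, W.a₃, W.a₄ + d4 n, W.a₆ + d6 n⟩ :
    WeierstrassCurve ℤ).c₄ : ℤ) : Qb)
      = fC4 (r₀ + ((M * n : ℤ) : Qb) * u) (s₀ + ((M * n : ℤ) : Qb) * v)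
  c6_fib : ∀ n : ℤ, (((⟨W.a₁, W.a₂, W.a₃, W.a₄ + d4 n, W.a₆ + d6 n⟩ :
    WeierstrassCurve ℤ).c₆ : ℤ) : Qb)
      = fC6 (r₀ + ((M * n : ℤ) : Qb) * u) (s₀ + ((M * n : ℤ) : Qb) * v)

namespace FamilyData

variable {W : WeierstrassCurve ℤ} (F : FamilyData W)

/-- The member of the family with parameter `M * n`. -/
def curve (n : ℤ) : WeierstrassCurve ℤ :=
  ⟨W.a₁, W.a₂, W.a₃, W.a₄ + F.d4 n, W.a₆ + F.d6 n⟩

/-- The value of the line parameter for index `n`. -/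
noncomputable def par (n : ℤ) : Qb := ((F.M * n : ℤ) : Qb)

theorem det_eq : F.r₀ * F.v - F.s₀ * F.u = 12 * fD F.r₀ F.s₀ := by
  rw [F.hu, F.hv, ← euler_fD]; ring

theorem Δ_curve (n : ℤ) :
    (((F.curve n).Δ : ℤ) : Qb)
      = fD (F.r₀ + F.par n * F.u) (F.s₀ + F.par n * F.v) ^ 5 := by
  apply mul_left_cancel₀ (show (1728 : Qb) ≠ 0 by norm_num)
  rw [← fC4_cube_sub_fC6_sq]
  simp only [par, ← F.c4_fib, ← F.c6_fib]
  exact_mod_cast (F.curve n).c_relation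

end FamilyData

theorem exists_rat_poly {P : Qb[X]} (h : ∀ σ : Qb ≃ₐ[ℚ] Qb, P.map (σ : Qb →+* Qb) = P) :
    ∃ p : ℚ[X], p.map (algebraMap ℚ Qb) = P := by
  have : IsGalois ℚ Qb := Arith.qBar_isGalois
  rw [← Polynomial.mem_lifts, Polynomial.lifts_iff_coeff_lifts]
  intro n
  refine IntermediateField.mem_bot.mp ((InfiniteGalois.mem_bot_iff_fixed _).mpr fun σ => ?_)
  conv_rhs => rw [← h σ]
  rw [coeff_map]
  rfl

theorem exists_int_values {p : ℚ[X]} (hp : p.eval 0 = 0) :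
    ∃ b : ℤ, b ≠ 0 ∧ ∀ m n : ℤ, b ∣ n → ∃ z : ℤ, (z : ℚ) = p.eval ((m * n : ℤ) : ℚ) ∧ m ∣ z := by
  obtain ⟨q, rfl⟩ : X ∣ p := by rw [X_dvd_iff, coeff_zero_eq_eval_zero]; exact hp
  obtain ⟨b, hb, hq⟩ := IsLocalization.integerNormalization_spec (nonZeroDivisors ℤ) q
  refine ⟨b, nonZeroDivisors.ne_zero hb, fun m n ⟨k, hk⟩ => ?_⟩
  set q' := IsLocalization.integerNormalization (nonZeroDivisors ℤ) q with hq'
  refine ⟨m * (k * q'.eval (m * n)), ?_, dvd_mul_right _ _⟩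
  have e : ((q'.eval (m * n) : ℤ) : ℚ) = (b : ℚ) * q.eval ((m * n : ℤ) : ℚ) := by
    have := congrArg (Polynomial.eval ((m * n : ℤ) : ℚ)) hq
    rw [eval_smul, eval_intCast_map] at this
    simpa [zsmul_eq_mul] using this
  subst hk
  push_cast
  rw [e, eval_mul, eval_X]
  push_cast
  ring

theorem exists_familyData {W : WeierstrassCurve ℤ} (hΔ : W.Δ ≠ 0) (hW : W.IsSemistableModel) :
    Nonempty (FamilyData W) := by
  have h4 : (W.c₄ : Qb) ≠ 0 := Int.cast_ne_zero.mpr (c₄_ne_zero_of_semistable hΔ hW)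
  have h6 : (W.c₆ : Qb) ≠ 0 := Int.cast_ne_zero.mpr (c₆_ne_zero_of_semistable hΔ hW)
  have hd : (W.c₄ : Qb) ^ 3 - (W.c₆ : Qb) ^ 2 ≠ 0 := by
    have e : (1728 : Qb) * (W.Δ : Qb) = (W.c₄ : Qb) ^ 3 - (W.c₆ : Qb) ^ 2 := by
      exact_mod_cast W.c_relation
    rw [← e]
    exact mul_ne_zero (by norm_num) (Int.cast_ne_zero.mpr hΔ)
  obtain ⟨r, s, e4, e6, eD⟩ := exists_forms_eq h4 h6 hd
  obtain ⟨α, hα⟩ := exists_int_fD_ne eD
  set u := (α : Qb) * r - fDs r s with hu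
  set v := (α : Qb) * s + fDr r s with hv
  have : NeZero (5 : Qb) := ⟨by norm_num⟩
  obtain ⟨z, hz⟩ : ∃ z : Qb, IsPrimitiveRoot z 5 := by
    obtain ⟨z, hz⟩ := IsAlgClosed.exists_root (cyclotomic 5 Qb)
      (degree_cyclotomic_pos 5 _ (by norm_num)).ne'
    exact ⟨z, isRoot_cyclotomic_iff.mp hz⟩
  have hsym : ∀ σ : Qb ≃ₐ[ℚ] Qb, ∃ a b c d : Qb, IsSym a b c d ∧ σ r = a * r + b * s ∧
      σ s = c * r + d * s ∧ σ u = a * u + b * v ∧ σ v = c * u + d * v := by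
    intro σ
    have k4 : fC4 (σ r) (σ s) = fC4 r s :=
      (map_fC4 (σ : Qb →+* Qb) r s).symm.trans (by simp [e4])
    have k6 : fC6 (σ r) (σ s) = fC6 r s :=
      (map_fC6 (σ : Qb →+* Qb) r s).symm.trans (by simp [e6])
    obtain ⟨a, b, c, d, hS, hr, hs⟩ := exists_isSym hz k4 k6 (by rw [e4]; exact h4)
      (by rw [e6]; exact h6) eD
    refine ⟨a, b, c, d, hS, hr, hs, ?_, ?_⟩
    · have k := hS.k1_eq r s
      rw [← hr, ← hs] at k
      have m : σ (fDs r s) = fDs (σ r) (σ s) := map_fDs (σ : Qb →+* Qb) r s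
      rw [hu, hv, map_sub, map_mul, map_intCast, m]
      linear_combination k + (α : Qb) * hr
    · have k := hS.k2_eq r s
      rw [← hr, ← hs] at k
      have m : σ (fDr r s) = fDr (σ r) (σ s) := map_fDr (σ : Qb →+* Qb) r s
      rw [hu, hv, map_add, map_mul, map_intCast, m]
      linear_combination k + (α : Qb) * hs
  set P4 : Qb[X] := fC4 (C r + C u * X) (C s + C v * X) with hP4
  set P6 : Qb[X] := fC6 (C r + C u * X) (C s + C v * X) with hP6
  obtain ⟨p4, hp4⟩ := exists_rat_poly (P := P4) fun σ => by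
    obtain ⟨a, b, c, d, hS, hr, hs, hu', hv'⟩ := hsym σ
    apply Polynomial.funext
    intro x
    rw [hP4, ← coe_mapRingHom, map_fC4, coe_mapRingHom, eval_fC4, eval_fC4]
    simp only [Polynomial.map_add, Polynomial.map_mul, map_C, map_X, eval_add, eval_mul, eval_C,
      eval_X, RingHom.coe_coe, hr, hs, hu', hv']
    conv_rhs => rw [← hS.c4_eq]
    congr 1 <;> ring
  obtain ⟨p6, hp6⟩ := exists_rat_poly (P := P6) fun σ => by
    obtain ⟨a, b, c, d, hS, hr, hs, hu', hv'⟩ := hsym σ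
    apply Polynomial.funext
    intro x
    rw [hP6, ← coe_mapRingHom, map_fC6, coe_mapRingHom, eval_fC6, eval_fC6]
    simp only [Polynomial.map_add, Polynomial.map_mul, map_C, map_X, eval_add, eval_mul, eval_C,
      eval_X, RingHom.coe_coe, hr, hs, hu', hv']
    conv_rhs => rw [← hS.c6_eq]
    congr 1 <;> ring
  have hev4 : ∀ x : ℚ, ((p4.eval x : ℚ) : Qb) = fC4 (r + (x : Qb) * u) (s + (x : Qb) * v) := by
    intro x
    have := congrArg (Polynomial.eval (algebraMap ℚ Qb x)) hp4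
    rw [eval_map, eval₂_at_apply, hP4, eval_fC4] at this
    simp only [eval_add, eval_mul, eval_C, eval_X, eq_ratCast] at this
    rw [this, mul_comm (x : Qb), mul_comm (x : Qb)]
  have hev6 : ∀ x : ℚ, ((p6.eval x : ℚ) : Qb) = fC6 (r + (x : Qb) * u) (s + (x : Qb) * v) := by
    intro x
    have := congrArg (Polynomial.eval (algebraMap ℚ Qb x)) hp6
    rw [eval_map, eval₂_at_apply, hP6, eval_fC6] at this
    simp only [eval_add, eval_mul, eval_C, eval_X, eq_ratCast] at this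
    rw [this, mul_comm (x : Qb), mul_comm (x : Qb)]
  have z4 : p4.eval 0 = (W.c₄ : ℚ) := by
    apply Rat.cast_injective (α := Qb)
    rw [hev4]; simp [e4]
  have z6 : p6.eval 0 = (W.c₆ : ℚ) := by
    apply Rat.cast_injective (α := Qb)
    rw [hev6]; simp [e6]
  set A4 : ℚ[X] := C (-1 / 48) * (p4 - C (W.c₄ : ℚ)) with hA4
  set A6 : ℚ[X] := C (-(W.b₂ : ℚ) / 576) * (p4 - C (W.c₄ : ℚ))
      - C (1 / 864) * (p6 - C (W.c₆ : ℚ)) with hA6
  obtain ⟨b4, hb4, hz4⟩ := exists_int_values (p := A4) (by simp [hA4, z4])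
  obtain ⟨b6, hb6, hz6⟩ := exists_int_values (p := A6) (by simp [hA6, z4, z6])
  choose z4' hz4' using fun n => hz4 (30 * W.Δ) (b4 * b6 * n) ⟨b6 * n, by ring⟩
  choose z6' hz6' using fun n => hz6 (30 * W.Δ) (b4 * b6 * n) ⟨b4 * n, by ring⟩
  have hMn : ∀ n : ℤ, 30 * W.Δ * (b4 * b6) * n = 30 * W.Δ * (b4 * b6 * n) := fun n => by ring
  refine ⟨{
    r₀ := r, s₀ := s, u := u, v := v, M := 30 * W.Δ * (b4 * b6), d4 := z4', d6 := z6',
    α := α,
    hM := mul_ne_zero (mul_ne_zero (by norm_num) hΔ) (mul_ne_zero hb4 hb6),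
    c4_base := e4, c6_base := e6, fD_base := eD, hu := rfl, hv := rfl, fD_dir := hα,
    sym := hsym, d4_dvd := fun n => (hz4' n).2, d6_dvd := fun n => (hz6' n).2,
    c4_fib := fun n => ?_, c6_fib := fun n => ?_ }⟩
  · rw [hMn, show (((30 * W.Δ * (b4 * b6 * n) : ℤ)) : Qb)
      = (((30 * W.Δ * (b4 * b6 * n) : ℤ) : ℚ) : Qb) by push_cast; rfl, ← hev4,
      ← Rat.cast_intCast]
    congr 1
    have e := (hz4' n).1
    simp only [hA4, eval_mul, eval_C, eval_sub] at e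
    simp only [WeierstrassCurve.c₄, WeierstrassCurve.b₂, WeierstrassCurve.b₄] at e ⊢
    push_cast at e ⊢
    linear_combination (-48 : ℚ) * e
  · rw [hMn, show (((30 * W.Δ * (b4 * b6 * n) : ℤ)) : Qb)
      = (((30 * W.Δ * (b4 * b6 * n) : ℤ) : ℚ) : Qb) by push_cast; rfl, ← hev6,
      ← Rat.cast_intCast]
    congr 1
    have e := (hz4' n).1
    have e' := (hz6' n).1
    simp only [hA4, hA6, eval_mul, eval_C, eval_sub] at e e'
    simp only [WeierstrassCurve.c₄, WeierstrassCurve.c₆, WeierstrassCurve.b₂,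
      WeierstrassCurve.b₄, WeierstrassCurve.b₆] at e e' ⊢
    push_cast at e e' ⊢
    linear_combination 72 * ((W.a₁ : ℚ) ^ 2 + 4 * W.a₂) * e - 864 * e'

end Fermat.Agent.Switch
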