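import Mathlib
import Fermat.Agent.Switch.Forms
import Fermat.Agent.Switch.IntegralValues

/-!
# No polynomial section of order three along a line of the icosahedral family
-/

set_option autoImplicit false
set_option linter.unusedSectionVars false

namespace Fermat.Agent.Switch

open Polynomial

theorem natDegree_line_monomial (r s u v : ℂ) (i j : ℕ) :
    ((C r + X * C u) ^ i * (C s + X * C v) ^ j).natDegree ≤ i + j ∧
      ((C r + X * C u) ^ i * (C s + X * C v) ^ j).coeff (i + j) = u ^ i * v ^ j := by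
  have h1 : ∀ a b : ℂ, (C a + X * C b).natDegree ≤ 1 := fun a b => by
    compute_degree
  have h2 : ∀ a b : ℂ, (C a + X * C b).coeff 1 = b := fun a b => by simp
  have hi : ((C r + X * C u) ^ i).natDegree ≤ i :=
    natDegree_pow_le.trans (le_trans (Nat.mul_le_mul_left i (h1 r u)) (Nat.mul_one i).le)
  have hj : ((C s + X * C v) ^ j).natDegree ≤ j :=
    natDegree_pow_le.trans (le_trans (Nat.mul_le_mul_left j (h1 s v)) (Nat.mul_one j).le)
  refine ⟨natDegree_mul_le.trans (add_le_add hi hj), ?_⟩
  rw [coeff_mul_add_eq_of_natDegree_le hi hj]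
  have ei := coeff_pow_of_natDegree_le (n := 1) (m := i) (h1 r u)
  have ej := coeff_pow_of_natDegree_le (n := 1) (m := j) (h1 s v)
  rw [Nat.mul_one, h2] at ei ej
  rw [ei, ej]

/-- A scalar multiple of a monomial on the line has degree at most `n`. -/
theorem natDegree_line_term (r s u v : ℂ) (c : ℂ) (i j n : ℕ) (h : i + j = n) :
    (C c * (C r + X * C u) ^ i * (C s + X * C v) ^ j).natDegree ≤ n ∧
      (C c * (C r + X * C u) ^ i * (C s + X * C v) ^ j).coeff n = c * (u ^ i * v ^ j) := by
  obtain ⟨h1, h2⟩ := natDegree_line_monomial r s u v i j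
  rw [mul_assoc]
  exact ⟨(natDegree_C_mul_le _ _).trans (h ▸ h1), by rw [coeff_C_mul, ← h, h2]⟩

theorem fD_line_degree (r s u v : ℂ) :
    (fD (C r + X * C u) (C s + X * C v)).natDegree ≤ 12 ∧
      (fD (C r + X * C u) (C s + X * C v)).coeff 12 = fD u v := by
  obtain ⟨a1, b1⟩ := natDegree_line_term r s u v 1 1 11 12 rfl
  obtain ⟨a2, b2⟩ := natDegree_line_term r s u v 11 6 6 12 rfl
  obtain ⟨a3, b3⟩ := natDegree_line_term r s u v 1 11 1 12 rfl
  have e : fD (C r + X * C u) (C s + X * C v)
      = C 1 * (C r + X * C u) ^ 1 * (C s + X * C v) ^ 11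
        - C 11 * (C r + X * C u) ^ 6 * (C s + X * C v) ^ 6
        - C 1 * (C r + X * C u) ^ 11 * (C s + X * C v) ^ 1 := by
    simp only [fD, map_one, map_ofNat]; ring
  rw [e]
  refine ⟨(natDegree_sub_le _ _).trans (max_le ((natDegree_sub_le _ _).trans (max_le a1 a2)) a3), ?_⟩
  rw [coeff_sub, coeff_sub, b1, b2, b3]
  simp only [fD]; ring

theorem fC4_line_degree (r s u v : ℂ) :
    (fC4 (C r + X * C u) (C s + X * C v)).natDegree ≤ 20 := by
  have t := fun c i j h => (natDegree_line_term r s u v c i j 20 h).1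
  have e : fC4 (C r + X * C u) (C s + X * C v)
      = C 1 * (C r + X * C u) ^ 20 * (C s + X * C v) ^ 0
        + C (-228) * (C r + X * C u) ^ 15 * (C s + X * C v) ^ 5
        + C 494 * (C r + X * C u) ^ 10 * (C s + X * C v) ^ 10
        + C 228 * (C r + X * C u) ^ 5 * (C s + X * C v) ^ 15
        + C 1 * (C r + X * C u) ^ 0 * (C s + X * C v) ^ 20 := by
    simp only [fC4, map_one, map_ofNat, map_neg]; ring
  rw [e]
  exact (natDegree_add_le _ _).trans (max_le ((natDegree_add_le _ _).trans (max_le
    ((natDegree_add_le _ _).trans (max_le ((natDegree_add_le _ _).trans (max_le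
      (t 1 20 0 rfl) (t (-228) 15 5 rfl))) (t 494 10 10 rfl))) (t 228 5 15 rfl)))
    (t 1 0 20 rfl))

theorem rootMultiplicity_pow_eq (p : ℂ[X]) (n : ℕ) (t : ℂ) :
    (p ^ n).rootMultiplicity t = n * p.rootMultiplicity t := by
  classical
  rw [← count_roots, ← count_roots, roots_pow, Multiset.count_nsmul]

theorem derivative_fD_line_eval (r s u v t : ℂ) :
    (derivative (fD (C r + X * C u) (C s + X * C v))).eval t
      = fDr (r + t * u) (s + t * v) * u + fDs (r + t * u) (s + t * v) * v := by
  simp [fD, fDr, fDs, derivative_pow]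
  ring

/-- The short-model quartic along the line has no polynomial root of degree at most `10`. -/
theorem no_polynomial_root (r s u v : ℂ) (hdet : r * v - s * u ≠ 0) (h0 : fC4 r s ≠ 0)
    (hdir : fD u v ≠ 0) (q : ℂ[X]) (hq : q.natDegree ≤ 10) :
    quartic (C (-27) * fC4 (C r + X * C u) (C s + X * C v))
      (C (-54) * fC6 (C r + X * C u) (C s + X * C v)) q ≠ 0 := by
  intro hroot
  set r' := C r + X * C u with hr'
  set s' := C s + X * C v with hs'
  set A := C (-27) * fC4 r' s' with hA
  set B := C (-54) * fC6 r' s' with hB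
  set D := fD r' s' with hD
  set w := 3 * q ^ 2 + A with hw
  set L := 3 * w - 8 * q ^ 2 with hL
  have hkey : w ^ 3 * L = C (-78732 * 1728 * 16) * q ^ 2 * D ^ 5 := by
    have h1 : 16 * q ^ 2 * (4 * A ^ 3 + 27 * B ^ 2) = w ^ 3 * L := by
      simp only [quartic] at hroot
      rw [hw, hL, hw]
      linear_combination (36 * B * q - 18 * A * q ^ 2 - 9 * q ^ 4 + 3 * A ^ 2) * hroot
    have h2 : 4 * A ^ 3 + 27 * B ^ 2 = C (-78732 * 1728) * D ^ 5 := by
      simp only [hA, hB, map_mul, map_neg, map_ofNat, hD]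
      linear_combination -78732 * fC4_cube_sub_fC6_sq r' s'
    rw [← h1, h2]; simp only [map_mul, map_neg, map_ofNat]; ring
  have hAdeg : A.natDegree ≤ 20 := (natDegree_C_mul_le _ _).trans (fC4_line_degree r s u v)
  have hwdeg : w.natDegree ≤ 20 := (natDegree_add_le _ _).trans (max_le (natDegree_mul_le.trans
    (by have := natDegree_pow_le (p := q) (n := 2); simp only [natDegree_ofNat]; omega)) hAdeg)
  have hLdeg : L.natDegree ≤ 20 := by
    refine (natDegree_sub_le _ _).trans (max_le (natDegree_mul_le.trans ?_)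
      (natDegree_mul_le.trans ?_))
    · simp only [natDegree_ofNat]; omega
    · have := natDegree_pow_le (p := q) (n := 2); simp only [natDegree_ofNat]; omega
  obtain ⟨hDle, hDcoef⟩ := fD_line_degree r s u v
  have hDdeg : D.natDegree = 12 :=
    le_antisymm hDle (le_natDegree_of_ne_zero (by rw [hD, hr', hs', hDcoef]; exact hdir))
  have hD0 : D ≠ 0 := fun h => by simp [h] at hDdeg
  have hA0 : A.eval 0 ≠ 0 := by simp [hA, hr', hs', fC4] at h0 ⊢; exact h0
  have hAroot : ∀ τ, D.eval τ = 0 → A.eval τ ≠ 0 := by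
    intro τ hτ hAτ
    simp only [hD, hr', hs', eval_fD, eval_add, eval_mul, eval_C, eval_X] at hτ
    simp only [hA, hr', hs', eval_mul, eval_C, eval_fC4, eval_add, eval_X] at hAτ
    obtain ⟨e1, e2⟩ := eq_zero_of_fC4_fD (by simpa using hAτ) hτ
    exact hdet (by linear_combination v * e1 - u * e2)
  have hsimple : ∀ τ, D.eval τ = 0 → (derivative D).eval τ ≠ 0 := by
    intro τ hτ hd
    rw [hD, hr', hs', derivative_fD_line_eval] at hd
    simp only [hD, hr', hs', eval_fD, eval_add, eval_mul, eval_C, eval_X] at hτ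
    set R := r + τ * u with hR
    set S := s + τ * v with hS
    have he := euler_fD R S
    rw [hτ, mul_zero] at he
    have hdet' : R * v - S * u = r * v - s * u := by rw [hR, hS]; ring
    have g1 : fDr R S * (r * v - s * u) = 0 := by
      rw [← hdet']; linear_combination v * he - S * hd
    have g2 : fDs R S * (r * v - s * u) = 0 := by
      rw [← hdet']; linear_combination -u * he + R * hd
    obtain ⟨e1, e2⟩ := eq_zero_of_fDr_fDs ((mul_eq_zero.mp g1).resolve_right hdet)
      ((mul_eq_zero.mp g2).resolve_right hdet)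
    exact hdet (by rw [← hdet', e1, e2]; ring)
  have hcount : ∀ τ, D.eval τ = 0 → D.rootMultiplicity τ = 1 := by
    intro τ hτ
    have h1 : 0 < D.rootMultiplicity τ := (rootMultiplicity_pos hD0).mpr hτ
    by_contra hne
    have h2 : 1 < D.rootMultiplicity τ := by omega
    exact hsimple τ hτ
      ((one_lt_rootMultiplicity_iff_isRoot hD0).mp h2).2
  by_cases hq0 : q = 0
  · subst hq0
    simp only [quartic] at hroot
    have := congrArg (Polynomial.eval 0) hroot
    simp [hA0] at this
  have hrhs : C (-78732 * 1728 * 16 : ℂ) * q ^ 2 * D ^ 5 ≠ 0 :=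
    mul_ne_zero (mul_ne_zero (C_ne_zero.mpr (by norm_num)) (pow_ne_zero _ hq0)) (pow_ne_zero _ hD0)
  have hL0 : L ≠ 0 := fun h => hrhs (by rw [← hkey, h, mul_zero])
  have hw0 : w ≠ 0 := fun h => hrhs (by rw [← hkey, h, zero_pow three_ne_zero, zero_mul])
  have hmult : ∀ τ, D.eval τ = 0 → 5 ≤ L.rootMultiplicity τ := by
    intro τ hτ
    have e := congrArg (rootMultiplicity τ) hkey
    rw [rootMultiplicity_mul (mul_ne_zero (pow_ne_zero _ hw0) hL0), rootMultiplicity_mul hrhs,
      rootMultiplicity_mul (mul_ne_zero (C_ne_zero.mpr (by norm_num)) (pow_ne_zero _ hq0)),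
      rootMultiplicity_C, rootMultiplicity_pow_eq, rootMultiplicity_pow_eq,
      rootMultiplicity_pow_eq, hcount τ hτ] at e
    by_cases hwτ : w.eval τ = 0
    · have hqτ : q.eval τ ≠ 0 := fun h => hAroot τ hτ (by simpa [hw, h] using hwτ)
      rw [rootMultiplicity_eq_zero (p := q) hqτ] at e
      by_cases hLτ : L.eval τ = 0
      · exfalso
        apply hqτ
        simpa [hL, hwτ] using hLτ
      · rw [rootMultiplicity_eq_zero (p := L) hLτ] at e
        omega
    · rw [rootMultiplicity_eq_zero (p := w) hwτ] at e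
      omega
  classical
  have hsplit : Multiset.card D.roots = D.natDegree :=
    ((IsAlgClosed.splits D).natDegree_eq_card_roots).symm
  have hle : 5 • D.roots ≤ L.roots := by
    rw [Multiset.le_iff_count]
    intro τ
    rw [Multiset.count_nsmul, count_roots, count_roots]
    by_cases hτ : D.eval τ = 0
    · rw [hcount τ hτ]; exact hmult τ hτ
    · rw [rootMultiplicity_eq_zero (p := D) hτ]; simp
  have h1 := Multiset.card_le_card hle
  rw [Multiset.card_nsmul, hsplit, hDdeg] at h1
  have h2 := L.card_roots'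
  omega

/-- The quartic cannot have an integral root at every natural parameter of a line. -/
theorem false_of_quartic_roots {r s u v : ℂ} (hdet : r * v - s * u ≠ 0) (h0 : fC4 r s ≠ 0)
    (hdir : fD u v ≠ 0)
    (hroot : ∀ n : ℕ, ∃ z : ℤ, quartic (-27 * fC4 (r + (n : ℂ) * u) (s + (n : ℂ) * v))
      (-54 * fC6 (r + (n : ℂ) * u) (s + (n : ℂ) * v)) (z : ℂ) = 0) : False := by
  have hAh : ∀ t : ℂ, t ≠ 0 → fC4 (r + t * u) (s + t * v)
      = t ^ 20 * fC4 (u + t⁻¹ * r) (v + t⁻¹ * s) := fun t ht => by
    rw [← fC4_smul]; congr 1 <;> field_simp <;> ring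
  have hBh : ∀ t : ℂ, t ≠ 0 → fC6 (r + t * u) (s + t * v)
      = t ^ 30 * fC6 (u + t⁻¹ * r) (v + t⁻¹ * s) := fun t ht => by
    rw [← fC6_smul]; congr 1 <;> field_simp <;> ring
  obtain ⟨q, hq, hq'⟩ := exists_polynomial_root
    (C (-27) * fC4 (C r + X * C u) (C s + X * C v))
    (C (-54) * fC6 (C r + X * C u) (C s + X * C v))
    (C (-27) * fC4 (C u + X * C r) (C v + X * C s))
    (C (-54) * fC6 (C u + X * C r) (C v + X * C s))
    (fun t ht => by
      simp only [eval_mul, eval_C, eval_fC4, eval_add, eval_X, hAh t ht]; ring)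
    (fun t ht => by
      simp only [eval_mul, eval_C, eval_fC6, eval_add, eval_X, hBh t ht]; ring)
    (by
      simp only [eval_mul, eval_C, eval_fC4, eval_fC6, eval_add, eval_X, zero_mul, add_zero]
      have e : (4 : ℂ) * (-27 * fC4 u v) ^ 3 + 27 * (-54 * fC6 u v) ^ 2
          = -78732 * (1728 * fD u v ^ 5) := by
        rw [← fC4_cube_sub_fC6_sq]; ring
      rw [e]
      exact mul_ne_zero (by norm_num) (mul_ne_zero (by norm_num) (pow_ne_zero _ hdir)))
    (fun n => by simpa only [eval_mul, eval_C, eval_fC4, eval_fC6, eval_add, eval_X] using hroot n)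
  exact no_polynomial_root r s u v hdet h0 hdir q hq hq'

end Fermat.Agent.Switch
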