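import Mathlib
import Fermat.Agent.Switch.Forms

/-!
# Symmetries of the icosahedral forms and transitivity on the fibres of `(fC4, fC6)`
-/

set_option autoImplicit false
set_option linter.unusedSectionVars false

namespace Fermat.Agent.Switch

open Polynomial

variable {K : Type*} [Field K] [CharZero K]

/-- A unimodular substitution fixing `fD`. -/
structure IsUni (a b c d : K) : Prop where
  det_eq : a * d - b * c = 1
  fD_eq : ∀ r s : K, fD (a * r + b * s) (c * r + d * s) = fD r s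

theorem IsUni.isSym {a b c d : K} (h : IsUni a b c d) : IsSym a b c d :=
  IsSym.of_fD h.det_eq h.fD_eq

theorem IsUni.mul {a b c d a' b' c' d' : K} (h : IsUni a b c d) (h' : IsUni a' b' c' d') :
    IsUni (a * a' + b * c') (a * b' + b * d') (c * a' + d * c') (c * b' + d * d') := by
  refine ⟨?_, fun r s => ?_⟩
  · linear_combination (a' * d' - b' * c') * h.det_eq + h'.det_eq
  · rw [← h'.fD_eq r s, ← h.fD_eq (a' * r + b' * s) (c' * r + d' * s)]
    congr 1 <;> ring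

theorem isUni_diag {u : K} (hu : u ^ 5 = 1) : IsUni u 0 0 (u ^ 4) := by
  refine ⟨by linear_combination hu, fun r s => ?_⟩
  have h45 : u ^ 45 = 1 := by rw [show u ^ 45 = (u ^ 5) ^ 9 by ring, hu, one_pow]
  have h30 : u ^ 30 = 1 := by rw [show u ^ 30 = (u ^ 5) ^ 6 by ring, hu, one_pow]
  have h15 : u ^ 15 = 1 := by rw [show u ^ 15 = (u ^ 5) ^ 3 by ring, hu, one_pow]
  simp only [fD]
  linear_combination (r * s ^ 11) * h45 - (11 * r ^ 6 * s ^ 6) * h30 - (r ^ 11 * s) * h15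

theorem isUni_swap : IsUni (0 : K) 1 (-1) 0 := by
  refine ⟨by ring, fun r s => ?_⟩
  rw [show (0 : K) * r + 1 * s = s by ring, show (-1 : K) * r + 0 * s = -r by ring, fD_swap]

/-- The two parameters `k = -1 - z^2 - z^3`, `p = z - z^4` of a primitive fifth root of unity,
through the relations they satisfy. -/
structure Param (K : Type*) [Field K] where
  k : K
  p : K
  hk : k ^ 2 + k = 1
  hp : p ^ 2 = -3 - k

/-- The scalar `c` of the involution `T = c * [[-1, k], [k, 1]]`. -/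
def Param.c (π : Param K) : K := π.p * (1 + 2 * π.k) / 5

theorem Param.c_sq (π : Param K) : π.c ^ 2 = -(3 + π.k) / 5 := by
  have h := π.hk
  have hp := π.hp
  simp only [Param.c]
  field_simp
  linear_combination ((1 + 2 * π.k) ^ 2) * hp + (-12 - 4 * π.k) * h

theorem kpow {k : K} (hk : k ^ 2 + k = 1) :
    k ^ 2 = 1 - k ∧ k ^ 3 = -1 + 2 * k ∧ k ^ 4 = 2 - 3 * k ∧ k ^ 5 = -3 + 5 * k ∧
    k ^ 6 = 5 - 8 * k ∧ k ^ 7 = -8 + 13 * k ∧ k ^ 8 = 13 - 21 * k ∧ k ^ 9 = -21 + 34 * k ∧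
    k ^ 10 = 34 - 55 * k ∧ k ^ 11 = -55 + 89 * k ∧ k ^ 12 = 89 - 144 * k ∧
    k ^ 13 = -144 + 233 * k ∧ k ^ 14 = 233 - 377 * k ∧ k ^ 15 = -377 + 610 * k ∧
    k ^ 16 = 610 - 987 * k ∧ k ^ 17 = -987 + 1597 * k := by
  have e2 : k ^ 2 = 1 - k := by linear_combination hk
  have e3 : k ^ 3 = -1 + 2 * k := by linear_combination k * e2 - e2
  have e4 : k ^ 4 = 2 - 3 * k := by linear_combination k * e3 + 2 * e2
  have e5 : k ^ 5 = -3 + 5 * k := by linear_combination k * e4 - 3 * e2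
  have e6 : k ^ 6 = 5 - 8 * k := by linear_combination k * e5 + 5 * e2
  have e7 : k ^ 7 = -8 + 13 * k := by linear_combination k * e6 - 8 * e2
  have e8 : k ^ 8 = 13 - 21 * k := by linear_combination k * e7 + 13 * e2
  have e9 : k ^ 9 = -21 + 34 * k := by linear_combination k * e8 - 21 * e2
  have e10 : k ^ 10 = 34 - 55 * k := by linear_combination k * e9 + 34 * e2
  have e11 : k ^ 11 = -55 + 89 * k := by linear_combination k * e10 - 55 * e2
  have e12 : k ^ 12 = 89 - 144 * k := by linear_combination k * e11 + 89 * e2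
  have e13 : k ^ 13 = -144 + 233 * k := by linear_combination k * e12 - 144 * e2
  have e14 : k ^ 14 = 233 - 377 * k := by linear_combination k * e13 + 233 * e2
  have e15 : k ^ 15 = -377 + 610 * k := by linear_combination k * e14 - 377 * e2
  have e16 : k ^ 16 = 610 - 987 * k := by linear_combination k * e15 + 610 * e2
  have e17 : k ^ 17 = -987 + 1597 * k := by linear_combination k * e16 - 987 * e2
  exact ⟨e2, e3, e4, e5, e6, e7, e8, e9, e10, e11, e12, e13, e14, e15, e16, e17⟩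

set_option maxRecDepth 10000 in
theorem fD_involution (k : K) (hk : k ^ 2 + k = 1) (r s : K) :
    (3 + k) ^ 6 * fD (-r + k * s) (k * r + s) = 15625 * fD r s := by
  obtain ⟨e2, e3, e4, e5, e6, e7, e8, e9, e10, e11, e12, e13, e14, e15, e16, e17⟩ := kpow hk
  have e18 : k ^ 18 = 1597 - 2584 * k := by linear_combination k * e17 + 1597 * e2
  simp only [fD]
  ring_nf
  simp only [e2, e3, e4, e5, e6, e7, e8, e9, e10, e11, e12, e13, e14, e15, e16, e17, e18]
  ring

theorem Param.isUni_T (π : Param K) :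
    IsUni (-π.c) (π.c * π.k) (π.c * π.k) π.c := by
  refine ⟨?_, fun r s => ?_⟩
  · have h := π.c_sq
    field_simp at h
    apply mul_left_cancel₀ (show (5 : K) ≠ 0 by norm_num)
    linear_combination -(1 + π.k ^ 2) * h + (π.k + 2) * π.hk
  · have h := π.c_sq
    have e : fD (-π.c * r + π.c * π.k * s) (π.c * π.k * r + π.c * s)
        = (π.c ^ 2) ^ 6 * fD (-r + π.k * s) (π.k * r + s) := by
      rw [← pow_mul, ← fD_smul]; congr 1 <;> ring
    rw [e, h, div_pow, show (-(3 + π.k)) ^ 6 = (3 + π.k) ^ 6 by ring, div_mul_eq_mul_div,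
      fD_involution π.k π.hk, mul_comm, mul_div_assoc]
    norm_num

theorem Param.k_ne_zero (π : Param K) : π.k ≠ 0 := by
  intro h; have := π.hk; rw [h] at this; norm_num at this

theorem Param.k_pow_four_ne_one (π : Param K) : π.k ^ 4 ≠ 1 := by
  intro h
  have hk := π.hk
  have : 3 * π.k = 1 := by linear_combination -h + (π.k ^ 2 - π.k + 2) * hk
  have : π.k = 1 / 3 := by linear_combination this / 3
  rw [this] at hk
  norm_num at hk

theorem Param.c_ne_zero (π : Param K) : π.c ≠ 0 := by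
  intro h
  have h2 := π.c_sq
  rw [h] at h2
  have : π.k = -3 := by field_simp at h2; linear_combination h2
  have hk := π.hk
  rw [this] at hk
  norm_num at hk

/-- The index type of representatives of the sixty rotations. -/
abbrev Rot : Type := (Fin 5 ⊕ Fin 5) ⊕ (Bool × Fin 5 × Fin 5)

/-- The entries `(a, b, c, d)` of the rotation with given index. -/
def rot (π : Param K) (z : K) : Rot → K × K × K × K
  | .inl (.inl i) => (z ^ (i : ℕ), 0, 0, (z ^ (i : ℕ)) ^ 4)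
  | .inl (.inr i) => (0, z ^ (i : ℕ), -(z ^ (i : ℕ)) ^ 4, 0)
  | .inr (true, i, j) =>
      (-π.c * (z ^ (i : ℕ) * z ^ (j : ℕ)), π.c * π.k * (z ^ (i : ℕ) * (z ^ (j : ℕ)) ^ 4),
       π.c * π.k * ((z ^ (i : ℕ)) ^ 4 * z ^ (j : ℕ)), π.c * ((z ^ (i : ℕ)) ^ 4 * (z ^ (j : ℕ)) ^ 4))
  | .inr (false, i, j) =>
      (π.c * π.k * (z ^ (i : ℕ) * z ^ (j : ℕ)), π.c * (z ^ (i : ℕ) * (z ^ (j : ℕ)) ^ 4),
       π.c * ((z ^ (i : ℕ)) ^ 4 * z ^ (j : ℕ)),
       -(π.c * π.k) * ((z ^ (i : ℕ)) ^ 4 * (z ^ (j : ℕ)) ^ 4))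

theorem isUni_rot (π : Param K) {z : K} (hz : z ^ 5 = 1) (g : Rot) :
    IsUni (rot π z g).1 (rot π z g).2.1 (rot π z g).2.2.1 (rot π z g).2.2.2 := by
  have hu : ∀ n : ℕ, (z ^ n) ^ 5 = 1 := fun n => by
    rw [← pow_mul, mul_comm, pow_mul, hz, one_pow]
  rcases g with (i | i) | ⟨_ | _, i, j⟩
  · exact isUni_diag (hu _)
  · have h := (isUni_diag (K := K) (hu (i : ℕ))).mul isUni_swap
    convert h using 1 <;> simp [rot]
  · have h := ((isUni_diag (K := K) (hu (i : ℕ))).mul (isUni_swap.mul π.isUni_T)).mul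
      (isUni_diag (hu (j : ℕ)))
    convert h using 1 <;> simp [rot] <;> ring
  · have h := ((isUni_diag (K := K) (hu (i : ℕ))).mul π.isUni_T).mul (isUni_diag (hu (j : ℕ)))
    convert h using 1 <;> simp [rot] <;> ring

theorem rot_ne_prop (π : Param K) {z : K} (hz : IsPrimitiveRoot z 5) {g h : Rot} {l : K}
    (h1 : (rot π z h).1 = l * (rot π z g).1) (h2 : (rot π z h).2.1 = l * (rot π z g).2.1)
    (h3 : (rot π z h).2.2.1 = l * (rot π z g).2.2.1)
    (h4 : (rot π z h).2.2.2 = l * (rot π z g).2.2.2) : g = h := by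
  have hc := π.c_ne_zero
  have hk := π.k_ne_zero
  have hz5 := hz.pow_eq_one
  have hn : ∀ n : ℕ, z ^ n ≠ 0 := fun n => pow_ne_zero _ (hz.ne_zero (by norm_num))
  have hu : ∀ n : ℕ, (z ^ n) ^ 5 = 1 := fun n => by
    rw [← pow_mul, mul_comm, pow_mul, hz5, one_pow]
  have inj : ∀ i j : Fin 5, z ^ (i : ℕ) = z ^ (j : ℕ) → i = j :=
    fun i j hij => Fin.ext (hz.pow_inj i.2 j.2 hij)
  have of_sq : ∀ x y : K, x ^ 5 = 1 → y ^ 5 = 1 → x ^ 2 = y ^ 2 → x = y := fun x y hx hy hxy => by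
    calc x = x ^ 6 := by rw [pow_succ, hx, one_mul]
      _ = (y ^ 2) ^ 3 := by rw [← hxy, ← pow_mul]
      _ = y := by rw [← pow_mul, pow_succ, hy, one_mul]
  have hl2 : l ^ 2 = 1 := by
    have e := (isUni_rot π hz5 h).det_eq
    rw [h1, h2, h3, h4] at e
    linear_combination e - l ^ 2 * (isUni_rot π hz5 g).det_eq
  have hl : l ≠ 0 := fun h0 => by simp [h0] at hl2
  have hk4 := π.k_pow_four_ne_one
  rcases g with (i | i) | ⟨_ | _, i, j⟩ <;> rcases h with (i' | i') | ⟨_ | _, i', j'⟩ <;>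
    simp only [rot, mul_zero] at h1 h2 h3 h4
  all_goals
    first
    | (exfalso; revert h1 h2 h3 h4; simp [hn, hc, hk, hl]; done)
    | skip
  · congr 2
    apply inj
    refine of_sq _ _ (hu _) (hu _) ?_
    rw [h1, mul_pow, hl2, one_mul]
  · congr 2
    apply inj
    refine of_sq _ _ (hu _) (hu _) ?_
    rw [h2, mul_pow, hl2, one_mul]
  all_goals
    set u := z ^ (i : ℕ) with hu'
    set u' := z ^ (i' : ℕ) with hu''
    set v := z ^ (j : ℕ) with hv'
    set v' := z ^ (j' : ℕ) with hv''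
    have Hu : u ^ 5 = 1 := hu _
    have Hu' : u' ^ 5 = 1 := hu _
    have Hv : v ^ 5 = 1 := hu _
    have Hv' : v' ^ 5 = 1 := hu _
    have hc2 : π.c ^ 2 ≠ 0 := pow_ne_zero _ hc
    have hc2k : π.c ^ 2 * π.k ≠ 0 := mul_ne_zero hc2 hk
  · obtain rfl : i = i' := inj _ _ <| of_sq _ _ Hu Hu' <| by
      apply mul_left_cancel₀ hc2k
      linear_combination -(congrArg₂ (· * ·) h1 h2) + (π.c ^ 2 * π.k * u' ^ 2) * Hv'
        - (l ^ 2 * π.c ^ 2 * π.k * u ^ 2) * Hv - (π.c ^ 2 * π.k * u ^ 2) * hl2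
    obtain rfl : j = j' := inj _ _ <| of_sq _ _ Hv Hv' <| by
      apply mul_left_cancel₀ hc2k
      linear_combination -(congrArg₂ (· * ·) h1 h3) + (π.c ^ 2 * π.k * v' ^ 2) * Hu'
        - (l ^ 2 * π.c ^ 2 * π.k * v ^ 2) * Hu - (π.c ^ 2 * π.k * v ^ 2) * hl2
    rfl
  · exfalso; apply hk4
    have e : π.k ^ 2 = 1 := by
      apply mul_left_cancel₀ hc2
      have hu55 : u ^ 5 * v ^ 5 = 1 := by rw [Hu, Hv, one_mul]
      have hu55' : u' ^ 5 * v' ^ 5 = 1 := by rw [Hu', Hv', one_mul]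
      linear_combination congrArg₂ (· * ·) h1 h4 + π.c ^ 2 * hu55'
        - (l ^ 2 * π.c ^ 2 * π.k ^ 2) * hu55 - (π.c ^ 2 * π.k ^ 2) * hl2
    linear_combination (π.k ^ 2 + 1) * e
  · exfalso; apply hk4
    have e : π.k ^ 2 = 1 := by
      apply mul_left_cancel₀ hc2
      have hu55 : u ^ 5 * v ^ 5 = 1 := by rw [Hu, Hv, one_mul]
      have hu55' : u' ^ 5 * v' ^ 5 = 1 := by rw [Hu', Hv', one_mul]
      linear_combination -(congrArg₂ (· * ·) h1 h4) - π.c ^ 2 * π.k ^ 2 * hu55'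
        + (l ^ 2 * π.c ^ 2) * hu55 + π.c ^ 2 * hl2
    linear_combination (π.k ^ 2 + 1) * e
  · obtain rfl : i = i' := inj _ _ <| of_sq _ _ Hu Hu' <| by
      apply mul_left_cancel₀ hc2k
      linear_combination congrArg₂ (· * ·) h1 h2 + (π.c ^ 2 * π.k * u' ^ 2) * Hv'
        - (l ^ 2 * π.c ^ 2 * π.k * u ^ 2) * Hv - (π.c ^ 2 * π.k * u ^ 2) * hl2
    obtain rfl : j = j' := inj _ _ <| of_sq _ _ Hv Hv' <| by
      apply mul_left_cancel₀ hc2k
      linear_combination congrArg₂ (· * ·) h1 h3 + (π.c ^ 2 * π.k * v' ^ 2) * Hu'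
        - (l ^ 2 * π.c ^ 2 * π.k * v ^ 2) * Hu - (π.c ^ 2 * π.k * v ^ 2) * hl2
    rfl

end Fermat.Agent.Switch
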